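import Fermat.Agent.S16.H736.UBAssembly

/-!
# S16, skeleton piece `lowerBound` glue (helper736)

`LowerBound p` from any `Θ ∈ M₂(Γ₀(p))` with `a₀(Θ) = 1` and even higher coefficients
(e.g. the theta series of an even quaternary lattice): take `G = Θ / 2`.
`LowerBound` below has the same body as `Fermat.Agent.S16.Skel.LowerBound`.
-/

set_option autoImplicit false

noncomputable section

namespace Fermat.Agent.S16.H736

open UpperHalfPlane ModularForm CongruenceSubgroup MatrixGroups ModularFormClass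
open Fermat.Agent.S20 (MF SF)

/-- (LB) there is a form with constant term `1/2` and integral higher coefficients.
Same body as `Fermat.Agent.S16.Skel.LowerBound`. -/
def LowerBound (p : ℕ) : Prop :=
  ∃ G ∈ MF (Gamma0 p) 2, qCoeff G 0 = 1 / 2 ∧ IntFrom1 G

/-- The last step of `Skel.lowerBound`: halve the theta series. -/
theorem lowerBound_of_theta (p : ℕ) [NeZero p] {Θ : ℍ → ℂ} (hmem : Θ ∈ MF (Gamma0 p) 2)
    (h0 : qCoeff Θ 0 = 1)
    (hk : ∀ k : ℕ, 1 ≤ k → ∃ m : ℤ, qCoeff Θ k = 2 * (m : ℂ)) : LowerBound p := by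
  refine ⟨((1 / 2 : ℂ)) • Θ, Submodule.smul_mem _ _ hmem, ?_, ?_⟩
  · rw [qCoeff_smul_of_mem p hmem, h0, mul_one]
  · intro k hk1
    obtain ⟨m, hm⟩ := hk k hk1
    refine ⟨m, ?_⟩
    rw [qCoeff_smul_of_mem p hmem, hm]
    ring

end Fermat.Agent.S16.H736
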