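import Fermat.Statements.S16
import Fermat.Prelude.Thm_ModularForm_sturm_bound_Gamma0
import Fermat.Agent.S20.H872.Index

/-!
# S16, skeleton piece `result_small` (helper736)

For `p < 5` (i.e. `p = 2, 3`) every weight `2` cusp form on `Γ₀(p)` vanishes (Prelude Sturm bound
together with `[SL₂(ℤ) : Γ₀(p)] = p + 1 ≤ 4`), hence the Hecke lattice algebra is the zero ring and
the quotient has exactly one element; `eisensteinNumerator 2 = eisensteinNumerator 3 = 1`.
-/

set_option autoImplicit false

open CuspForm ModularFormClass UpperHalfPlane ModularForm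

namespace Fermat.Agent.S16.H736

open scoped MatrixGroups

/-- `[SL₂(ℤ) : Γ₀(p)] ≤ 4` for a prime `p < 5`. -/
theorem index_Gamma0_le_four (p : ℕ) (hp : p.Prime) (hp5 : p < 5) :
    (CongruenceSubgroup.Gamma0 p).index ≤ 4 := by
  rw [Fermat.Agent.S20.H872.index_Gamma0 p hp.ne_zero]
  have h := Fermat.Agent.S20.H872.dedekindPsi_mul_prime_of_not_dvd (N := 1) one_ne_zero hp
    (by
      intro h1
      have := Nat.le_of_dvd one_pos h1
      have := hp.two_le
      omega)
  rw [one_mul, ModularCurve.dedekindPsi_one, mul_one] at h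
  rw [h]
  have h2 := hp.two_le
  have h4 : p ≠ 4 := by
    rintro rfl
    exact absurd hp (by decide)
  omega

/-- `S₂(Γ₀(p)) = 0` for a prime `p < 5`. -/
theorem cuspForm_eq_zero_of_lt_five (p : ℕ) [NeZero p] (hp : p.Prime) (hp5 : p < 5)
    (f : CuspForm (CongruenceSubgroup.Gamma0 p) 2) : f = 0 := by
  have h1 : (1 : ℝ) ∈ (CongruenceSubgroup.Gamma0 p : Subgroup (GL (Fin 2) ℝ)).strictPeriods := by
    simp [CongruenceSubgroup.strictPeriods_Gamma0]
  have h0 : (qExpansion 1 f).coeff 0 = 0 :=
    CuspFormClass.qExpansion_coeff_zero f one_pos h1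
  have hidx := index_Gamma0_le_four p hp hp5
  have hg : CuspForm.toModularFormₗ f = 0 := by
    refine ModularForm.sturm_bound_Gamma0 p _ (fun n hn => ?_)
    have hn0 : n = 0 := by
      have : ((2 : ℤ) * ((CongruenceSubgroup.Gamma0 p).index : ℤ)).toNat / 12 = 0 := by
        omega
      omega
    subst hn0
    exact h0
  exact CuspForm.toModularFormₗ_injective (by simpa using hg)

theorem eisensteinNumerator_of_lt_five (p : ℕ) (hp : p.Prime) (hp5 : p < 5) :
    ModularCurve.eisensteinNumerator p = 1 := by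
  have h2 := hp.two_le
  unfold ModularCurve.eisensteinNumerator
  interval_cases p
  · decide
  · decide
  · exact absurd hp (by decide)

/-- Skeleton statement `result_small`, byte-identical type. -/
theorem result_small (p : ℕ) [Fact p.Prime] (hp : p < 5) :
    Nat.card (↥(CuspForm.heckeLatticeAlgebra p ∅) ⧸
        Ideal.map ((CuspForm.latticeRestrictHom p ∅).toRingHom.comp (CuspForm.heckeEvalForms p 2))
          (ModularCurve.eisensteinIdeal p)) =
      ModularCurve.eisensteinNumerator p := by
  have hpp : p.Prime := Fact.out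
  rw [eisensteinNumerator_of_lt_five p hpp hp]
  have hS : Subsingleton (CuspForm (CongruenceSubgroup.Gamma0 p) 2) :=
    ⟨fun f g => by
      rw [cuspForm_eq_zero_of_lt_five p hpp hp f, cuspForm_eq_zero_of_lt_five p hpp hp g]⟩
  have hL : Subsingleton ↥(CuspForm.intLattice p 2) :=
    ⟨fun f g => Subtype.ext (Subsingleton.elim _ _)⟩
  have hE : Subsingleton (Module.End ℤ ↥(CuspForm.intLattice p 2)) :=
    ⟨fun a b => LinearMap.ext fun x => Subsingleton.elim _ _⟩
  have hT : Subsingleton ↥(CuspForm.heckeLatticeAlgebra p ∅) :=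
    ⟨fun a b => Subtype.ext (Subsingleton.elim _ _)⟩
  have : Subsingleton (↥(CuspForm.heckeLatticeAlgebra p ∅) ⧸
        Ideal.map ((CuspForm.latticeRestrictHom p ∅).toRingHom.comp (CuspForm.heckeEvalForms p 2))
          (ModularCurve.eisensteinIdeal p)) :=
    ⟨fun a b => by
      obtain ⟨a, rfl⟩ := Ideal.Quotient.mk_surjective a
      obtain ⟨b, rfl⟩ := Ideal.Quotient.mk_surjective b
      rw [Subsingleton.elim a b]⟩
  exact Nat.card_unique
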