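import Fermat.Agent.S16.Interface
import Fermat.Agent.S16.H131.U4
import Fermat.Agent.S16.H377.SkelU0
import Fermat.Prelude.Def_ModularForm_HeckeOperatorForms

/-!
# S16 / helper736: work package U4 in the exact skeleton shape

Instantiation of helper131's abstract Fricke system (`H131.FrickeSys`) by the actual modular forms
on `Γ₀(p)` (function level, `MF (Gamma0 p) w`), using helper377's Fricke/trace package, and the
resulting skeleton statement `U4`.
-/

set_option autoImplicit false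

noncomputable section

namespace Fermat.Agent.S16.H736

open UpperHalfPlane ModularForm CongruenceSubgroup MatrixGroups ModularFormClass
open Fermat.Agent.S20 (MF SF)
open Fermat.Agent.S16
open PowerSeries

variable (p : ℕ) [hpp : Fact p.Prime]

/-- `q`-expansion of a sum of forms on `Γ₀(p)`. -/
theorem u4_qExp_add {k : ℤ} {F H : ℍ → ℂ} (hF : F ∈ MF (Gamma0 p) k)
    (hH : H ∈ MF (Gamma0 p) k) :
    qExpansion 1 (F + H) = qExpansion 1 F + qExpansion 1 H := by
  obtain ⟨F', rfl⟩ := H377.FR.exists_bundled p hF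
  obtain ⟨H', rfl⟩ := H377.FR.exists_bundled p hH
  exact ModularForm.qExpansion_add one_pos (H377.U0S.one_mem_strictPeriods_Gamma0 p) F' H'

/-- `q`-expansion of a scalar multiple of a form on `Γ₀(p)`. -/
theorem u4_qExp_smul {k : ℤ} (c : ℂ) {F : ℍ → ℂ} (hF : F ∈ MF (Gamma0 p) k) :
    qExpansion 1 (c • F) = c • qExpansion 1 F := by
  obtain ⟨F', rfl⟩ := H377.FR.exists_bundled p hF
  exact ModularForm.qExpansion_smul one_pos (H377.U0S.one_mem_strictPeriods_Gamma0 p) c F'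

/-- `q`-expansion of a product of forms on `Γ₀(p)`. -/
theorem u4_qExp_mul {k₁ k₂ : ℤ} {F H : ℍ → ℂ} (hF : F ∈ MF (Gamma0 p) k₁)
    (hH : H ∈ MF (Gamma0 p) k₂) :
    qExpansion 1 (F * H) = qExpansion 1 F * qExpansion 1 H := by
  ext n
  have := H377.U0S.qCoeff_mul p hF hH n
  unfold qCoeff at this
  rw [this, PowerSeries.coeff_mul]

/-- `q`-expansion of `V_p H` for `H` of level one. -/
theorem u4_qExp_Vp {k : ℤ} {H : ℍ → ℂ} (hH : H ∈ MF ⊤ k) :
    qExpansion 1 (Vp p H) = PowerSeries.expand p hpp.out.ne_zero (qExpansion 1 H) := by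
  ext n
  have := H377.U0S.qCoeff_Vp p hH n
  unfold qCoeff at this
  rw [this]
  by_cases hn : p ∣ n
  · obtain ⟨m, rfl⟩ := hn
    rw [if_pos (dvd_mul_right p m), Nat.mul_div_cancel_left m hpp.out.pos,
      PowerSeries.coeff_expand_mul]
  · rw [if_neg hn, PowerSeries.coeff_expand_of_not_dvd p hpp.out.ne_zero _ hn]

/-- `U_p` preserves `M_k(Γ₀(p))`. -/
theorem u4_heckeU_mem {k : ℤ} {F : ℍ → ℂ} (hF : F ∈ MF (Gamma0 p) k) :
    heckeU k p F ∈ MF (Gamma0 p) k := by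
  haveI : NeZero p := ⟨hpp.out.ne_zero⟩
  obtain ⟨F', rfl⟩ := H377.FR.exists_bundled p hF
  exact H377.FR.coe_mem_MF p (ModularForm.heckeULin (N := p) (p := p) k (dvd_refl p) F')

/-- `q`-expansion of `U_p F`. -/
theorem u4_qExp_heckeU {k : ℤ} {F : ℍ → ℂ} (hF : F ∈ MF (Gamma0 p) k) :
    qExpansion 1 (heckeU k p F) = H131.Uop p (qExpansion 1 F) := by
  ext n
  have := H377.U0S.qCoeff_heckeU_of_mem p hF n
  unfold qCoeff at this
  rw [this, H131.coeff_Uop, mul_comm]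

/-- The Fricke system of level `p` given by the actual modular forms on `Γ₀(p)`. -/
def u4_frickeSys : H131.FrickeSys p hpp.out.ne_zero where
  Form w x := ∃ F : ℍ → ℂ, F ∈ MF (Gamma0 p) w ∧ x.1 = qExpansion 1 F ∧
    x.2 = qExpansion 1 (hat p w F)
  add := by
    rintro w ⟨a, b⟩ ⟨a', b'⟩ ⟨F, hF, h1, h2⟩ ⟨H, hH, h1', h2'⟩
    simp only at h1 h2 h1' h2'
    refine ⟨F + H, Submodule.add_mem _ hF hH, ?_, ?_⟩
    · simp only [Prod.mk_add_mk]
      rw [u4_qExp_add p hF hH, h1, h1']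
    · simp only [Prod.mk_add_mk]
      rw [H377.FR.hat_add, u4_qExp_add p (H377.FR.hat_mem_MF p hF) (H377.FR.hat_mem_MF p hH),
        h2, h2']
  smul := by
    rintro w ⟨a, b⟩ c ⟨F, hF, h1, h2⟩
    simp only at h1 h2
    refine ⟨c • F, Submodule.smul_mem _ c hF, ?_, ?_⟩
    · simp only [Prod.smul_mk]
      rw [u4_qExp_smul p c hF, h1]
    · simp only [Prod.smul_mk]
      rw [H377.FR.hat_smul, u4_qExp_smul p c (H377.FR.hat_mem_MF p hF), h2]
  mul := by
    rintro w w' ⟨a, b⟩ ⟨a', b'⟩ ⟨F, hF, h1, h2⟩ ⟨H, hH, h1', h2'⟩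
    simp only at h1 h2 h1' h2'
    refine ⟨F * H, H377.U0S.mul_mem_MF_Gamma0 p hF hH, ?_, ?_⟩
    · simp only [Prod.mk_mul_mk]
      rw [u4_qExp_mul p hF hH, h1, h1']
    · simp only [Prod.mk_mul_mk]
      rw [H377.FR.hat_mul, u4_qExp_mul p (H377.FR.hat_mem_MF p hF) (H377.FR.hat_mem_MF p hH),
        h2, h2']
  ofL1 := by
    rintro w a ⟨f, rfl⟩
    have hf : (⇑f : ℍ → ℂ) ∈ MF ⊤ w :=
      Fermat.Agent.S20.C0h516.mem_MF_top_iff_exists.mpr ⟨f, rfl⟩
    refine ⟨⇑f, H377.U0S.MF_top_le p hf, rfl, ?_⟩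
    simp only
    rw [H377.FR.hat_levelOne p hf, u4_qExp_smul p _ (H377.FR.Vp_mem_MF p hf), u4_qExp_Vp p hf]
  symm := by
    rintro w ⟨a, b⟩ hw ⟨F, hF, h1, h2⟩
    simp only at h1 h2
    refine ⟨hat p w F, H377.FR.hat_mem_MF p hF, h2, ?_⟩
    simp only
    rw [H377.FR.hat_hat p hw, u4_qExp_smul p _ hF, h1]
  trace := by
    rintro w ⟨a, b⟩ ⟨F, hF, h1, h2⟩
    simp only at h1 h2
    obtain ⟨f, hf⟩ := Fermat.Agent.S20.C0h516.mem_MF_top_iff_exists.mp (H377.FR.tr_mem_MF p hF)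
    refine ⟨f, ?_⟩
    simp only
    have hhat := H377.FR.hat_mem_MF p hF
    have hU := u4_heckeU_mem p hhat
    rw [hf, tr, u4_qExp_add p hF (Submodule.smul_mem _ _ hU), u4_qExp_smul p _ hU,
      u4_qExp_heckeU p hhat, h1, h2]

/-- **WP U4** (exact skeleton statement).  No `G ∈ M₂(Γ₀(p))`, `p ≡ 7 mod 8`, has integral
`q`-expansion congruent to an odd constant modulo `8`. -/
theorem U4 (p : ℕ) [Fact p.Prime] (hp8 : p % 8 = 7) {G : ℍ → ℂ} (hG : G ∈ MF (Gamma0 p) 2)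
    (s : ℤ) (hs : Odd s) (h0 : qCoeff G 0 = (s : ℂ))
    (hcong : ∀ k : ℕ, 1 ≤ k → ∃ m : ℤ, qCoeff G k = 8 * (m : ℂ)) : False := by
  classical
  have h8 : 8 ∣ p + 1 := by omega
  choose! m hm using hcong
  let x : PowerSeries ℤ := PowerSeries.mk fun k => if k = 0 then 0 else m k
  have hx : qExpansion 1 G = H131.ι (C s + 8 * x) := by
    ext k
    have h8' : (8 : PowerSeries ℤ) = C (8 : ℤ) := by rw [map_ofNat]
    rw [PowerSeries.coeff_map, map_add, h8', PowerSeries.coeff_C_mul, PowerSeries.coeff_C,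
      PowerSeries.coeff_mk]
    by_cases hk : k = 0
    · subst hk
      have := h0
      unfold qCoeff at this
      rw [this]
      simp
    · have := hm k (Nat.one_le_iff_ne_zero.mpr hk)
      unfold qCoeff at this
      rw [this]
      simp [hk]
  refine (u4_frickeSys p).U4 h8 s hs x (qExpansion 1 (hat p 2 G)) ⟨G, hG, hx.symm, rfl⟩

end Fermat.Agent.S16.H736
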