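import Fermat.Agent.S16.Defs
import Fermat.Agent.S20.C0_helper559

/-!
# S16, skeleton piece `upperBound_of` (helper736)

Pure arithmetic assembly of the upper bound: from
* `hU0` (the constant term is rational and, away from `p`, its denominator divides `p + 1`),
* `hU2` (Hecke pigeonhole: a unit constant mod `ℓ^a` forces `ℓ^a ∣ 24`),
* `hU4` (`p ≡ 7 mod 8`: no form `≡ odd constant mod 8`),
deduce `24 * a₀(G) ∈ gcd(p-1,12) ℤ` for every `G ∈ M₂(Γ₀(p))` with integral higher coefficients.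

The statement of `upperBound_of` is the one of `Skeleton.lean` (origin/helper556), with
`UpperBound` unfolded-identical (`UpperBound` below has the same body as `Skel.UpperBound`).
-/

set_option autoImplicit false

noncomputable section

namespace Fermat.Agent.S16.H736

open UpperHalfPlane ModularForm CongruenceSubgroup MatrixGroups ModularFormClass
open Fermat.Agent.S20 (MF SF)

/-- (UB) integrality of the higher coefficients bounds the denominator of the constant term.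
Same body as `Fermat.Agent.S16.Skel.UpperBound`. -/
def UpperBound (p : ℕ) : Prop :=
  ∀ G ∈ MF (Gamma0 p) 2, IntFrom1 G →
    ∃ m : ℤ, 24 * qCoeff G 0 = (Nat.gcd (p - 1) 12 : ℂ) * (m : ℂ)

/-- `q`-coefficients are homogeneous on function-level modular forms for `Γ₀(N)`. -/
theorem qCoeff_smul_of_mem (N : ℕ) [NeZero N] {k : ℤ} {G : ℍ → ℂ} (hG : G ∈ MF (Gamma0 N) k)
    (c : ℂ) (n : ℕ) : qCoeff (c • G) n = c * qCoeff G n := by
  have h1 : (1 : ℝ) ∈ (Gamma0 N : Subgroup (GL (Fin 2) ℝ)).strictPeriods := by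
    simp [CongruenceSubgroup.strictPeriods_Gamma0]
  have h := ModularForm.qExpansion_smul (h := 1) one_pos h1 c
    (Fermat.Agent.S20.C0h559.mkMF (Gamma0 N) k G hG)
  simp only [Fermat.Agent.S20.C0h559.coe_mkMF] at h
  unfold qCoeff
  rw [h]
  simp

/-- The arithmetic heart: `t ∣ 24`, `3 ∣ t → 3 ∣ p+1`, `4 ∣ t → 4 ∣ p+1`, `8 ∤ t`
imply `t * gcd(p-1,12) ∣ 24` for a prime `p ≥ 5`. -/
theorem den_mul_gcd_dvd (p t : ℕ) (hp : p.Prime) (hp5 : 5 ≤ p) (ht : t ∣ 24)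
    (h3 : 3 ∣ t → 3 ∣ p + 1) (h4 : 4 ∣ t → 4 ∣ p + 1) (h8 : ¬ 8 ∣ t) :
    t * Nat.gcd (p - 1) 12 ∣ 24 := by
  have hmod : p % 12 = 1 ∨ p % 12 = 5 ∨ p % 12 = 7 ∨ p % 12 = 11 := by
    have h2 : ¬ 2 ∣ p := fun h => by
      have := (Nat.prime_dvd_prime_iff_eq Nat.prime_two hp).mp h
      omega
    have h3' : ¬ 3 ∣ p := fun h => by
      have := (Nat.prime_dvd_prime_iff_eq Nat.prime_three hp).mp h
      omega
    omega
  have hgcd : Nat.gcd (p - 1) 12 = Nat.gcd ((p - 1) % 12) 12 := by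
    rw [Nat.gcd_comm, Nat.gcd_rec]
  have hle : t ≤ 24 := Nat.le_of_dvd (by norm_num) ht
  have hpos : 0 < t := Nat.pos_of_dvd_of_pos ht (by norm_num)
  rcases hmod with h | h | h | h
  · have e : (p - 1) % 12 = 0 := by omega
    have n3 : ¬ 3 ∣ t := fun h' => by have := h3 h'; omega
    have n4 : ¬ 4 ∣ t := fun h' => by have := h4 h'; omega
    rw [hgcd, e]
    clear h3 h4 hgcd
    interval_cases t <;> first | omega | decide
  · have e : (p - 1) % 12 = 4 := by omega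
    have n4 : ¬ 4 ∣ t := fun h' => by have := h4 h'; omega
    rw [hgcd, e]
    clear h3 h4 hgcd
    interval_cases t <;> first | omega | decide
  · have e : (p - 1) % 12 = 6 := by omega
    have n3 : ¬ 3 ∣ t := fun h' => by have := h3 h'; omega
    rw [hgcd, e]
    clear h3 h4 hgcd
    interval_cases t <;> first | omega | decide
  · have e : (p - 1) % 12 = 10 := by omega
    rw [hgcd, e]
    clear h3 h4 hgcd
    interval_cases t <;> first | omega | decide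

/-- Skeleton statement `upperBound_of` (WP UB, arithmetic assembly). -/
theorem upperBound_of (p : ℕ) [Fact p.Prime] (hp5 : 5 ≤ p)
    (hU0 : ∀ G ∈ MF (Gamma0 p) 2, IntFrom1 G →
      ∃ r : ℚ, qCoeff G 0 = (r : ℂ) ∧
        ∀ ℓ : ℕ, ℓ.Prime → ℓ ≠ p → ∀ a : ℕ, ℓ ^ a ∣ r.den → ℓ ^ a ∣ p + 1)
    (hU2 : ∀ G ∈ MF (Gamma0 p) 2, ∀ (ℓ : ℕ), ℓ.Prime → ∀ (a : ℕ) (s : ℤ), ¬ (ℓ : ℤ) ∣ s →
      qCoeff G 0 = (s : ℂ) →
      (∀ k : ℕ, 1 ≤ k → ∃ m : ℤ, qCoeff G k = ((ℓ : ℂ) ^ a) * (m : ℂ)) → ℓ ^ a ∣ 24)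
    (hU4 : p % 8 = 7 → ∀ G ∈ MF (Gamma0 p) 2, ∀ s : ℤ, Odd s → qCoeff G 0 = (s : ℂ) →
      (∀ k : ℕ, 1 ≤ k → ∃ m : ℤ, qCoeff G k = 8 * (m : ℂ)) → False) :
    UpperBound p := by
  intro G hG hint
  have hpp : p.Prime := Fact.out
  have : NeZero p := ⟨hpp.ne_zero⟩
  obtain ⟨r, hr, hden⟩ := hU0 G hG hint
  have htpos : 0 < r.den := r.den_pos
  have htne : (r.den : ℂ) ≠ 0 := by exact_mod_cast htpos.ne'
  have hrc : (r : ℂ) = (r.num : ℂ) / (r.den : ℂ) := by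
    rw [Rat.cast_def]
  have hG'' : ((r.den : ℂ) • G) ∈ MF (Gamma0 p) 2 := Submodule.smul_mem _ _ hG
  have h0 : qCoeff ((r.den : ℂ) • G) 0 = ((r.num : ℤ) : ℂ) := by
    rw [qCoeff_smul_of_mem p hG, hr, hrc]
    field_simp
  have hk : ∀ d : ℕ, d ∣ r.den → ∀ k : ℕ, 1 ≤ k →
      ∃ m : ℤ, qCoeff ((r.den : ℂ) • G) k = (d : ℂ) * (m : ℂ) := by
    rintro d ⟨e, he⟩ k hk1
    obtain ⟨m, hm⟩ := hint k hk1
    refine ⟨e * m, ?_⟩
    rw [qCoeff_smul_of_mem p hG, hm, he]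
    push_cast
    ring
  have hcop : ∀ ℓ : ℕ, ℓ.Prime → ℓ ∣ r.den → ¬ (ℓ : ℤ) ∣ r.num := by
    intro ℓ hℓ hd hn
    have h1 : ℓ ∣ r.num.natAbs := Int.natCast_dvd.mp hn
    have h2 : ℓ ∣ Nat.gcd r.num.natAbs r.den := Nat.dvd_gcd h1 hd
    rw [r.reduced] at h2
    exact hℓ.one_lt.ne' (Nat.dvd_one.mp h2)
  have hpow24 : ∀ ℓ a : ℕ, ℓ.Prime → ℓ ^ a ∣ r.den → ℓ ^ a ∣ 24 := by
    intro ℓ a hℓ hd
    rcases Nat.eq_zero_or_pos a with rfl | ha
    · simp
    · have hℓd : ℓ ∣ r.den := (dvd_pow_self ℓ ha.ne').trans hd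
      refine hU2 _ hG'' ℓ hℓ a r.num (hcop ℓ hℓ hℓd) h0 ?_
      intro k hk1
      obtain ⟨m, hm⟩ := hk (ℓ ^ a) hd k hk1
      exact ⟨m, by rw [hm]; push_cast; ring⟩
  have ht24 : r.den ∣ 24 :=
    (Nat.dvd_iff_prime_pow_dvd_dvd 24 r.den).mpr (fun ℓ a hℓ hd => hpow24 ℓ a hℓ hd)
  have h3 : 3 ∣ r.den → 3 ∣ p + 1 := fun h => by
    have := hden 3 Nat.prime_three (by omega) 1 (by simpa using h)
    simpa using this
  have h4 : 4 ∣ r.den → 4 ∣ p + 1 := fun h => by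
    have := hden 2 Nat.prime_two (by omega) 2 (by simpa using h)
    simpa using this
  have h8 : ¬ 8 ∣ r.den := by
    intro h
    have h8p : 8 ∣ p + 1 := by
      have := hden 2 Nat.prime_two (by omega) 3 (by simpa using h)
      simpa using this
    have hp8 : p % 8 = 7 := by omega
    have hodd : Odd r.num := by
      have h2 := hcop 2 Nat.prime_two (dvd_trans (by norm_num) h)
      rw [← Int.not_even_iff_odd]
      intro he
      exact h2 (by exact_mod_cast even_iff_two_dvd.mp he)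
    refine hU4 hp8 _ hG'' r.num hodd h0 ?_
    intro k hk1
    obtain ⟨m, hm⟩ := hk 8 h k hk1
    exact ⟨m, by rw [hm]; push_cast; ring⟩
  obtain ⟨c, hc⟩ := den_mul_gcd_dvd p r.den hpp hp5 ht24 h3 h4 h8
  refine ⟨r.num * c, ?_⟩
  rw [hr, hrc]
  have hc' : (24 : ℂ) = (r.den : ℂ) * (Nat.gcd (p - 1) 12 : ℂ) * (c : ℂ) := by
    exact_mod_cast hc
  push_cast
  rw [hc']
  field_simp

end Fermat.Agent.S16.H736
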